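import Mathlib.Algebra.Order.Antidiag.Pi
import Mathlib.Combinatorics.Enumerative.InclusionExclusion
import Mathlib.Data.Sym.Card
import Mathlib.Order.WellQuasiOrder
import Mathlib.RingTheory.Polynomial.Basic
import Mathlib.RingTheory.Polynomial.Pochhammer
import Mathlib.Tactic

/-!
# Lattice points of a simplex in an upper set

For an upper set `U` of `ℕ ^ k` the number of its points with coordinate sum `h` agrees with a
polynomial in `h` of degree less than `k` for all large `h`, by Dickson's lemma and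
inclusion-exclusion.
-/

set_option autoImplicit false

noncomputable section

open Finset Filter Polynomial
open scoped Classical

namespace FA.IteratedSumsets

/-- The points of `ℕ ^ k` with coordinate sum `h`. -/
def slice (k h : ℕ) : Finset (Fin k → ℕ) := piAntidiag univ h

@[simp] theorem mem_slice {k h : ℕ} {n : Fin k → ℕ} : n ∈ slice k h ↔ ∑ i, n i = h := by
  simp [slice]

theorem card_slice (k h : ℕ) : (slice k h).card = k.multichoose h := by
  rw [slice, ← map_sym_eq_piAntidiag, card_map, sym_univ, card_univ,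
    Sym.card_sym_eq_multichoose, Fintype.card_fin]

/-- Eventually a polynomial of degree less than `k`. -/
def EvPoly (k : ℕ) (f : ℕ → ℚ) : Prop :=
  ∃ P ∈ degreeLT ℚ k, ∀ᶠ h : ℕ in atTop, f h = P.eval (h : ℚ)

variable {k : ℕ} {f g : ℕ → ℚ}

theorem EvPoly.zero : EvPoly k fun _ => 0 := ⟨0, zero_mem _, by simp⟩

theorem EvPoly.add (hf : EvPoly k f) (hg : EvPoly k g) : EvPoly k fun h => f h + g h := by
  obtain ⟨P, hP, hPf⟩ := hf
  obtain ⟨Q, hQ, hQg⟩ := hg
  refine ⟨P + Q, add_mem hP hQ, ?_⟩
  filter_upwards [hPf, hQg] with h h1 h2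
  rw [h1, h2, eval_add]

theorem EvPoly.const_mul (c : ℚ) (hf : EvPoly k f) : EvPoly k fun h => c * f h := by
  obtain ⟨P, hP, hPf⟩ := hf
  refine ⟨c • P, Submodule.smul_mem _ c hP, ?_⟩
  filter_upwards [hPf] with h h1
  rw [h1, eval_smul, smul_eq_mul]

theorem EvPoly.sub (hf : EvPoly k f) (hg : EvPoly k g) : EvPoly k fun h => f h - g h := by
  simpa [sub_eq_add_neg] using hf.add (hg.const_mul (-1))

theorem EvPoly.congr (hf : EvPoly k f) (e : ∀ᶠ h in atTop, g h = f h) : EvPoly k g := by
  obtain ⟨P, hP, hPf⟩ := hf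
  exact ⟨P, hP, by filter_upwards [hPf, e] with h h1 h2; rw [h2, h1]⟩

theorem EvPoly.sum {ι : Type*} (s : Finset ι) {F : ι → ℕ → ℚ} (hF : ∀ i ∈ s, EvPoly k (F i)) :
    EvPoly k fun h => ∑ i ∈ s, F i h := by
  classical
  induction s using Finset.induction_on with
  | empty => simpa using EvPoly.zero
  | insert a t ha ih =>
    simpa [Finset.sum_insert ha] using
      (hF a (mem_insert_self a t)).add (ih fun i hi => hF i (mem_insert_of_mem hi))

/-- The points above `d`. -/
theorem card_slice_above (d : Fin k → ℕ) {h : ℕ} (hd : ∑ i, d i ≤ h) :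
    ((slice k h).filter fun n => d ≤ n).card = k.multichoose (h - ∑ i, d i) := by
  rw [← card_slice]
  refine card_nbij' (fun n => n - d) (fun n => n + d) ?_ ?_ ?_ ?_
  · intro n hn
    rw [coe_filter, Set.mem_ofPred_eq, mem_slice] at hn
    rw [mem_coe, mem_slice, ← hn.1]
    simp only [Pi.sub_apply]
    exact sum_tsub_distrib _ fun i _ => hn.2 i
  · intro n hn
    rw [mem_coe, mem_slice] at hn
    rw [coe_filter, Set.mem_ofPred_eq, mem_slice]
    refine ⟨?_, le_add_self⟩
    simp only [Pi.add_apply, sum_add_distrib, hn]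
    omega
  · intro n hn
    rw [coe_filter, Set.mem_ofPred_eq] at hn
    exact funext fun i => Nat.sub_add_cancel (hn.2 i)
  · intro n _
    exact funext fun i => Nat.add_sub_cancel (n i) (d i)

theorem evPoly_multichoose (D : ℕ) : EvPoly k fun h => (k.multichoose (h - D) : ℚ) := by
  obtain _ | j := k
  · refine EvPoly.zero.congr ?_
    filter_upwards [eventually_gt_atTop D] with h hh
    obtain ⟨m, hm⟩ := Nat.exists_eq_add_of_lt hh
    rw [show h - D = m + 1 by omega, Nat.multichoose_zero_succ, Nat.cast_zero]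
  · refine ⟨((j.factorial : ℚ)⁻¹) • (ascPochhammer ℚ j).comp (X + Polynomial.C (1 - (D : ℚ))),
      Submodule.smul_mem _ _ (mem_degreeLT.2 ?_), ?_⟩
    · refine lt_of_le_of_lt degree_le_natDegree ?_
      rw [natDegree_comp, ascPochhammer_natDegree, natDegree_X_add_C, mul_one]
      exact_mod_cast Nat.lt_succ_self j
    · filter_upwards [eventually_ge_atTop D] with h hh
      rw [eval_smul, smul_eq_mul, eval_comp, eval_add, eval_X, eval_C,
        show (h : ℚ) + (1 - (D : ℚ)) = ((h - D + 1 : ℕ) : ℚ) by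
          rw [Nat.cast_add, Nat.cast_sub hh, Nat.cast_one]; ring,
        ← ascPochhammer_eval_cast, ascPochhammer_nat_eq_ascFactorial,
        Nat.ascFactorial_eq_factorial_mul_choose, Nat.cast_mul,
        inv_mul_cancel_left₀ (Nat.cast_ne_zero.2 j.factorial_ne_zero), Nat.multichoose_eq,
        show j + 1 + (h - D) - 1 = (h - D) + j by omega, Nat.choose_symm_add]

/-- **Dickson's lemma.** An upper set is generated by finitely many points. -/
theorem exists_generators (U : Set (Fin k → ℕ)) (hU : IsUpperSet U) :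
    ∃ M : Finset (Fin k → ℕ), ∀ n, n ∈ U ↔ ∃ d ∈ M, d ≤ n := by
  have hfin : {d | Minimal (· ∈ U) d}.Finite :=
    (setOfPred_minimal_antichain _).finite_of_wellQuasiOrdered wellQuasiOrdered_le
  refine ⟨hfin.toFinset, fun n => ⟨fun hn => ?_, ?_⟩⟩
  · obtain ⟨d, hd, hmin⟩ := exists_minimal_le_of_wellFoundedLT (· ∈ U) n hn
    exact ⟨d, hfin.mem_toFinset.2 hmin, hd⟩
  · rintro ⟨d, hd, hle⟩
    exact hU hle (hfin.mem_toFinset.1 hd).1

/-- **The count in an upper set.** -/
theorem evPoly_upperSet (U : Set (Fin k → ℕ)) (hU : IsUpperSet U) :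
    EvPoly k fun h => (((slice k h).filter (· ∈ U)).card : ℚ) := by
  obtain ⟨M, hM⟩ := exists_generators U hU
  have e : ∀ h, (((slice k h).filter (· ∈ U)).card : ℚ) =
      ∑ t : M.powerset.filter (·.Nonempty), (-1 : ℚ) ^ (t.1.card + 1) *
        (((slice k h).filter fun n => t.1.sup id ≤ n).card : ℚ) := fun h => by
    have hb : (slice k h).filter (· ∈ U) = M.biUnion fun d => (slice k h).filter (d ≤ ·) := by
      ext n
      simp only [mem_filter, mem_biUnion, hM]
      exact ⟨fun ⟨h1, d, hd, h2⟩ => ⟨d, hd, h1, h2⟩, fun ⟨d, hd, h1, h2⟩ => ⟨h1, d, hd, h2⟩⟩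
    have key := congrArg (Int.cast (R := ℚ))
      (inclusion_exclusion_card_biUnion M fun d => (slice k h).filter (d ≤ ·))
    push_cast at key
    rw [hb, key]
    refine sum_congr rfl fun t _ => ?_
    congr 3
    ext n
    simp only [mem_inf', mem_filter, Finset.sup_le_iff, id]
    obtain ⟨d, hd⟩ := (mem_filter.1 t.2).2
    exact ⟨fun h' => ⟨(h' d hd).1, fun b hb => (h' b hb).2⟩,
      fun h' b hb => ⟨h'.1, h'.2 b hb⟩⟩
  refine EvPoly.congr (EvPoly.sum _ fun t _ => EvPoly.const_mul _ ?_) (Eventually.of_forall e)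
  refine (evPoly_multichoose (∑ i, t.1.sup id i)).congr ?_
  filter_upwards [eventually_ge_atTop (∑ i, t.1.sup id i)] with h hh
  rw [card_slice_above _ hh]

/-- The count outside an upper set. -/
theorem evPoly_lowerSet (U : Set (Fin k → ℕ)) (hU : IsUpperSet U) :
    EvPoly k fun h => (((slice k h).filter (· ∉ U)).card : ℚ) := by
  refine ((evPoly_multichoose 0).sub (evPoly_upperSet U hU)).congr (Eventually.of_forall ?_)
  intro h
  rw [tsub_zero, ← card_slice, ← card_filter_add_card_filter_not (s := slice k h) (· ∈ U)]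
  push_cast
  ring

end FA.IteratedSumsets

end
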