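import Fermat.Agent.IteratedSumsets.Count
import Mathlib.Algebra.Group.Pointwise.Finset.Basic
import Mathlib.Analysis.Polynomial.Basic
import Mathlib.Order.PiLex

/-!
# Khovanskii's theorem

The size of an iterated sumset is eventually a polynomial, by the argument of Nathanson and Ruzsa:
the lexicographically least representations form the complement of an upper set.
-/

set_option autoImplicit false

noncomputable section

open Finset Filter
open scoped Pointwise

namespace FA.IteratedSumsets

variable {G : Type*} [AddCommMonoid G] {k l : ℕ}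

/-- The element represented by `n`. -/
def value (v : Fin k → G) (n : Fin k → ℕ) : G := ∑ i, n i • v i

theorem value_add (v : Fin k → G) (m n : Fin k → ℕ) : value v (m + n) = value v m + value v n := by
  simp [value, add_smul, sum_add_distrib]

/-- The order on representations. -/
def key (x : Fin l × (Fin k → ℕ)) : Lex (Fin l × Lex (Fin k → ℕ)) := toLex (x.1, toLex x.2)

theorem key_injective : Function.Injective (key (k := k) (l := l)) := fun x y h => by
  simpa [key, Prod.ext_iff] using h

theorem key_lt_add {i j : Fin l} {m n : Fin k → ℕ} (e : Fin k → ℕ) (h : key (i, m) < key (j, n)) :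
    key (i, m + e) < key (j, n + e) := by
  rcases Prod.Lex.toLex_lt_toLex.1 h with h1 | ⟨h1, a, ha, hlt⟩
  · exact Prod.Lex.toLex_lt_toLex.2 (Or.inl h1)
  · refine Prod.Lex.toLex_lt_toLex.2 (Or.inr ⟨h1, a, fun b hb => ?_, ?_⟩)
    · show m b + e b = n b + e b
      rw [show m b = n b from ha b hb]
    · show m a + e a < n a + e a
      exact Nat.add_lt_add_right hlt _

/-- The representations with shift `j` that are not least. -/
def redundant (v : Fin k → G) (w : Fin l → G) (j : Fin l) : Set (Fin k → ℕ) :=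
  {n | ∃ i m, ∑ a, m a = ∑ a, n a ∧ w i + value v m = w j + value v n ∧ key (i, m) < key (j, n)}

theorem isUpperSet_redundant (v : Fin k → G) (w : Fin l → G) (j : Fin l) :
    IsUpperSet (redundant v w j) := by
  rintro n n' hle ⟨i, m, hs, hv, hk⟩
  obtain ⟨e, rfl⟩ : ∃ e, n' = n + e := ⟨n' - n, funext fun a => (Nat.add_sub_cancel' (hle a)).symm⟩
  refine ⟨i, m + e, ?_, ?_, key_lt_add e hk⟩
  · simp only [Pi.add_apply, sum_add_distrib, hs]
  · rw [value_add, value_add, ← add_assoc, hv, add_assoc]

open scoped Classical in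
theorem card_image_eq (v : Fin k → G) (w : Fin l → G) (h : ℕ) :
    ((univ ×ˢ slice k h).image fun x => w x.1 + value v x.2).card =
      ∑ j, ((slice k h).filter (· ∉ redundant v w j)).card := by
  rw [← card_sigma]
  symm
  refine card_nbij (fun x => w x.1 + value v x.2) ?_ ?_ ?_
  · intro x hx
    rw [mem_coe, mem_sigma, mem_filter] at hx
    exact mem_image_of_mem (fun y : Fin l × (Fin k → ℕ) => w y.1 + value v y.2)
      (mem_product.2 ⟨mem_univ _, hx.2.1⟩ : (x.1, x.2) ∈ univ ×ˢ slice k h)
  · rintro ⟨i, m⟩ hm ⟨j, n⟩ hn heq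
    rw [mem_coe, mem_sigma, mem_filter, mem_slice] at hm hn
    rcases lt_trichotomy (key (i, m)) (key (j, n)) with hlt | he | hlt
    · exact absurd ⟨i, m, hm.2.1.trans hn.2.1.symm, heq, hlt⟩ hn.2.2
    · obtain ⟨rfl, rfl⟩ := Prod.ext_iff.1 (key_injective he)
      rfl
    · exact absurd ⟨j, n, hn.2.1.trans hm.2.1.symm, heq.symm, hlt⟩ hm.2.2
  · intro g hg
    rw [mem_coe, mem_image] at hg
    obtain ⟨y, hy, rfl⟩ := hg
    obtain ⟨⟨j, n⟩, hx, hmin⟩ := ((univ ×ˢ slice k h).filter fun z : Fin l × (Fin k → ℕ) =>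
      w z.1 + value v z.2 = w y.1 + value v y.2).exists_min_image key
      ⟨y, mem_filter.2 ⟨hy, rfl⟩⟩
    rw [mem_filter, mem_product, mem_slice] at hx
    refine ⟨⟨j, n⟩, ?_, hx.2⟩
    rw [mem_coe, mem_sigma, mem_filter, mem_slice]
    refine ⟨mem_univ _, hx.1.2, fun ⟨i, m, hs, hv, hlt⟩ => ?_⟩
    exact not_le.2 hlt (hmin (i, m) (mem_filter.2
      ⟨mem_product.2 ⟨mem_univ _, mem_slice.2 (hs.trans hx.1.2)⟩, hv.trans hx.2⟩))

open scoped Classical in
theorem evPoly_card_image (v : Fin k → G) (w : Fin l → G) :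
    EvPoly k fun h => (((univ ×ˢ slice k h).image fun x => w x.1 + value v x.2).card : ℚ) := by
  simp only [card_image_eq, Nat.cast_sum]
  exact EvPoly.sum _ fun j _ => evPoly_lowerSet _ (isUpperSet_redundant v w j)

variable [DecidableEq G]

theorem nsmul_eq_image {A : Finset G} (v : Fin k → G) (hv : univ.image v = A) (h : ℕ) :
    h • A = (slice k h).image (value v) := by
  subst hv
  induction h with
  | zero =>
    ext x
    simp only [zero_smul, Finset.mem_zero, mem_image, mem_slice]
    constructor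
    · rintro rfl
      exact ⟨0, by simp, by simp [value]⟩
    · rintro ⟨a, ha, rfl⟩
      exact sum_eq_zero fun i _ => by rw [Finset.sum_eq_zero_iff.1 ha i (mem_univ i), zero_smul]
  | succ h ih =>
    rw [succ_nsmul, ih]
    ext x
    simp only [Finset.mem_add, mem_image, mem_univ, true_and, mem_slice]
    constructor
    · rintro ⟨_, ⟨n, hn, rfl⟩, _, ⟨i, rfl⟩, rfl⟩
      refine ⟨n + Pi.single i 1, ?_, ?_⟩
      · simp [sum_add_distrib, sum_pi_single', hn]
      · rw [value_add]
        congr 1
        simp [value, Pi.single_apply, ite_smul]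
    · rintro ⟨n, hn, rfl⟩
      obtain ⟨i, hi⟩ : ∃ i, 0 < n i := by
        by_contra! h0
        simp [Finset.sum_eq_zero (s := univ) fun i _ => Nat.le_zero.1 (h0 i)] at hn
      obtain ⟨m, rfl⟩ : ∃ m, n = m + Pi.single i 1 := ⟨n - Pi.single i 1, funext fun a => by
        by_cases ha : a = i
        · subst ha
          simp
          omega
        · simp [ha]⟩
      refine ⟨value v m, ⟨m, ?_, rfl⟩, v i, ⟨i, rfl⟩, ?_⟩
      · simp [sum_add_distrib, sum_pi_single'] at hn
        omega
      · rw [value_add]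
        congr 1
        simp [value, Pi.single_apply, ite_smul]

/-- **Khovanskii's theorem.** -/
theorem khovanskii (A B : Finset G) :
    EvPoly A.card fun h => ((B + h • A).card : ℚ) := by
  set v : Fin A.card → G := fun i => (A.equivFin.symm i : G) with hvdef
  set w : Fin B.card → G := fun i => (B.equivFin.symm i : G) with hwdef
  have hv : ∀ (S : Finset G) (u : Fin S.card → G), u = (fun i => (S.equivFin.symm i : G)) →
      univ.image u = S := by
    rintro S u rfl
    ext x
    simp only [mem_image, mem_univ, true_and]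
    exact ⟨fun ⟨i, hi⟩ => hi ▸ (S.equivFin.symm i).2, fun hx => ⟨S.equivFin ⟨x, hx⟩, by simp⟩⟩
  refine (evPoly_card_image v w).congr (Eventually.of_forall fun h => ?_)
  congr 2
  classical
  conv_lhs => rw [nsmul_eq_image v (hv A v hvdef) h, ← hv B w hwdef]
  ext x
  simp [Finset.mem_add, Prod.exists]

/-- **Sumsets of integers grow linearly.** -/
theorem int_linear (A : Finset ℤ) :
    ∃ a b : ℚ, ∀ᶠ h : ℕ in atTop, ((h • A).card : ℚ) = a * h + b := by
  obtain ⟨P, -, hP⟩ := khovanskii A {0}
  replace hP : ∀ᶠ h : ℕ in atTop, ((h • A).card : ℚ) = P.eval (h : ℚ) := by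
    simpa [Finset.singleton_zero] using hP
  have hsub : ∀ h : ℕ, ∀ M : ℤ, (∀ a ∈ A, |a| ≤ M) → 0 ≤ M →
      h • A ⊆ Icc (-(h * M)) (h * M) := by
    intro h M hM hM0
    induction h with
    | zero => intro x hx; simp at hx; simp [hx]
    | succ h ih =>
      intro x hx
      rw [succ_nsmul, Finset.mem_add] at hx
      obtain ⟨y, hy, z, hz, rfl⟩ := hx
      have := mem_Icc.1 (ih hy)
      have := abs_le.1 (hM z hz)
      rw [mem_Icc]
      push_cast
      constructor <;> linarith
  set M : ℤ := ∑ a ∈ A, |a| with hMdef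
  have hM0 : 0 ≤ M := sum_nonneg fun a _ => abs_nonneg a
  have hbound : ∀ h : ℕ, ((h • A).card : ℚ) ≤ 2 * M * h + 1 := fun h => by
    have := card_le_card (hsub h M (fun a ha => single_le_sum (f := fun a => |a|)
      (fun b _ => abs_nonneg b) ha) hM0)
    rw [Int.card_Icc] at this
    have h2 : (((h : ℤ) * M + 1 - -((h : ℤ) * M)).toNat : ℤ) = 2 * (M * h) + 1 := by
      rw [Int.toNat_of_nonneg (by linarith [mul_nonneg (Nat.cast_nonneg (α := ℤ) h) hM0])]
      ring
    have h3 : ((h • A).card : ℤ) ≤ 2 * (M * h) + 1 := h2 ▸ (by exact_mod_cast this)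
    rw [mul_assoc]
    exact_mod_cast h3
  have hdeg : P.natDegree ≤ 1 := by
    by_contra! hdeg
    have hlead : ∀ (Q : Polynomial ℚ), Q.leadingCoeff ≤ 0 → 0 < Q.degree →
        Tendsto (fun h : ℕ => Q.eval (h : ℚ)) atTop atBot := fun Q hQ hQd =>
      (Q.tendsto_atBot_of_leadingCoeff_nonpos hQd hQ).comp tendsto_natCast_atTop_atTop
    set R : Polynomial ℚ := Polynomial.C (2 * (M : ℚ)) * Polynomial.X + 1 with hR
    have hRdeg : R.natDegree < P.natDegree := lt_of_le_of_lt (by rw [hR]; compute_degree) hdeg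
    rcases le_total P.leadingCoeff 0 with hl | hl
    · obtain ⟨h, h1, h2⟩ := ((hlead P hl (Polynomial.natDegree_pos_iff_degree_pos.1
        (by omega))).eventually_lt_atBot 0 |>.and hP).exists
      have h0 : (0 : ℚ) ≤ ((h • A : Finset ℤ).card : ℚ) := Nat.cast_nonneg _
      rw [h2] at h0
      linarith
    · have hd : (R - P).natDegree = P.natDegree :=
        Polynomial.natDegree_sub_eq_right_of_natDegree_lt hRdeg
      have hl' : (R - P).leadingCoeff ≤ 0 := by
        rw [Polynomial.leadingCoeff, hd, Polynomial.coeff_sub,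
          Polynomial.coeff_eq_zero_of_natDegree_lt hRdeg, zero_sub, ← Polynomial.leadingCoeff]
        linarith
      obtain ⟨h, h1, h2⟩ := ((hlead (R - P) hl' (Polynomial.natDegree_pos_iff_degree_pos.1
        (by omega))).eventually_lt_atBot 0 |>.and hP).exists
      have h3 := hbound h
      simp [hR] at h1
      linarith
  refine ⟨P.coeff 1, P.coeff 0, ?_⟩
  filter_upwards [hP] with h hh
  rw [hh]
  conv_lhs => rw [Polynomial.eq_X_add_C_of_natDegree_le_one hdeg]
  simp

end FA.IteratedSumsets

end
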